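import Mathlib
import Fermat.Agent.S41.Defs
import Fermat.Agent.Gateway.A2.Defs
import Fermat.Agent.Gateway.Hecke.Coh

/-!
# P-S41 (B7) assembly: shared notation

* `HZ M = H(M; ℤ)`, `HP M p = H(M; 𝔽_p)` (as `ℤ`-submodules of `Hom(Γ₀(M), ·)`),
* `IharaLevel N q p M`: every pair `(φ₁, φ₂)` in the kernel of `α` on `H(N; 𝔽_p)²` vanishes on
  `Γ₀(N) ∩ Γ(M)`;
* `IharaEis N q p M`: on every pair `(φ₁, φ₂)` in the kernel of `α` on `H(N; 𝔽_p)²` the Hecke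
  operators `T_l`, `l ≡ 1 mod M` prime, `l ∤ N`, act by `l + 1` (this is all the final assembly
  uses; it follows from `IharaLevel` by `Ihara.heckeHom_eq_smul_of_vanish`).
-/

set_option autoImplicit false

namespace Fermat.Agent.S41.Assembly

open CongruenceSubgroup
open Fermat.Agent.Gateway.A2 Fermat.Agent.Gateway.HeckeCoh
open Fermat.Agent.S41
open scoped MatrixGroups

/-- `H(M; ℤ)`. -/
abbrev HZ (M : ℕ) : Submodule ℤ (Additive (Gamma0 M) →+ ℤ) := homPE ℤ (Gamma0 M) ℤ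

/-- `H(M; 𝔽_p)`. -/
abbrev HP (M p : ℕ) : Submodule ℤ (Additive (Gamma0 M) →+ ZMod p) := homPE ℤ (Gamma0 M) (ZMod p)

/-- the conclusion of Ihara's lemma at level `M`, for all of `ker α` at once. -/
def IharaLevel (N q p : ℕ) [NeZero q] (M : ℕ) : Prop :=
  ∀ φ₁ ∈ HP N p, ∀ φ₂ ∈ HP N p, res₁ N q (ZMod p) φ₁ + res₂ N q (ZMod p) φ₂ = 0 →
    ∀ gam : Gamma0 N, (gam : SL(2, ℤ)) ∈ Gamma M →
      φ₁ (Additive.ofMul gam) = 0 ∧ φ₂ (Additive.ofMul gam) = 0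

/-- the kernel of `α` on `H(N; 𝔽_p)²` is Eisenstein at the primes `l ≡ 1 mod M`. -/
def IharaEis (N q p : ℕ) [NeZero N] [NeZero q] (M : ℕ) : Prop :=
  ∀ φ₁ ∈ HP N p, ∀ φ₂ ∈ HP N p, res₁ N q (ZMod p) φ₁ + res₂ N q (ZMod p) φ₂ = 0 →
    ∀ (l : ℕ) [Fact l.Prime] (hlN : ¬ l ∣ N), l ≡ 1 [MOD M] →
      heckeHom N l hlN (ZMod p) φ₁ = ((l : ℤ) + 1) • φ₁ ∧
      heckeHom N l hlN (ZMod p) φ₂ = ((l : ℤ) + 1) • φ₂

end Fermat.Agent.S41.Assembly
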