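import Mathlib
import Fermat.Agent.S41.Defs
import Fermat.Agent.S41.Assembly.Defs
import Fermat.Agent.S41.Final.Lattice
import Fermat.Agent.S41.Degeneracy.CorRes
import Fermat.Agent.S41.Degeneracy.PE
import Fermat.Agent.S41.PD.Main
import Fermat.Agent.S41.Ihara.Assembly
import Fermat.Agent.S41.Ihara.Eisenstein
import Fermat.Agent.Gateway.Hecke.CohPE

/-!
# P-S41 (B7) assembly, Step B: the mod `p` inputs of `Final.chase` in integral form (helper67)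

* `exists_iharaLevel`: a uniform Ihara level for the (finite) kernel of `α` on `H(N; 𝔽_p)²`;
* `iharaEis_of_iharaLevel`: Ihara level ⇒ `T_l = l + 1` on `ker α` for `l ≡ 1 mod M`;
* `ihara_int`: `hIhara` of `Final.chase`;
* `dual_int`: `hDual` of `Final.chase`.
-/

set_option autoImplicit false
set_option linter.style.haveILetI false

namespace Fermat.Agent.S41.Assembly

open CongruenceSubgroup
open Fermat.Agent.Gateway.A2 Fermat.Agent.Gateway.HeckeCoh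
open Fermat.Agent.S41 Fermat.Agent.S41.Final
open scoped MatrixGroups

/-- `Γ(M) ≤ Γ(d)` for `d ∣ M`. -/
theorem Gamma_le_of_dvd' {d M : ℕ} (h : d ∣ M) : Gamma M ≤ Gamma d := by
  intro γ hγ
  rw [Gamma_mem] at hγ ⊢
  have key : ∀ (x y : ℤ), ((x : ℤ) : ZMod M) = ((y : ℤ) : ZMod M) →
      ((x : ℤ) : ZMod d) = ((y : ℤ) : ZMod d) := by
    intro x y hxy
    rw [ZMod.intCast_eq_intCast_iff_dvd_sub] at hxy ⊢
    exact dvd_trans (Int.natCast_dvd_natCast.mpr h) hxy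
  obtain ⟨h1, h2, h3, h4⟩ := hγ
  refine ⟨?_, ?_, ?_, ?_⟩
  · have := key (γ 0 0) 1 (by simpa using h1)
    simpa using this
  · have := key (γ 0 1) 0 (by simpa using h2)
    simpa using this
  · have := key (γ 1 0) 0 (by simpa using h3)
    simpa using this
  · have := key (γ 1 1) 1 (by simpa using h4)
    simpa using this

section ModP

variable (N q p : ℕ) [NeZero N] [Fact q.Prime] [Fact p.Prime]

/-- `H(N; 𝔽_p)` is finite. -/
theorem finite_HP : Finite (HP N p) := by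
  obtain ⟨g, -, -, hcard⟩ := Fermat.Agent.Gateway.A2.Count.a2_Gamma0 N
  have h := (hcard p).2.1
  apply Nat.finite_of_card_ne_zero
  rw [h]
  exact pow_ne_zero _ (NeZero.ne p)

/-- uniform Ihara: one level `M` for all of `ker α` (which is finite). -/
theorem exists_iharaLevel (hcsp : Ihara.CSPStatement N q (ZMod p)) (hqN : ¬ q ∣ N) :
    ∃ M : ℕ, 0 < M ∧ IharaLevel N q p M := by
  classical
  haveI : Finite (HP N p) := finite_HP N p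
  haveI : Fintype (HP N p × HP N p) := Fintype.ofFinite _
  have hNq : Nat.Coprime N q :=
    (Nat.Coprime.symm ((Nat.Prime.coprime_iff_not_dvd (Fact.out : q.Prime)).mpr hqN))
  -- the level attached to a pair
  have hex : ∀ v : HP N p × HP N p, ∃ M : ℕ, 0 < M ∧
      (res₁ N q (ZMod p) (v.1 : Additive (Gamma0 N) →+ ZMod p)
        + res₂ N q (ZMod p) (v.2 : Additive (Gamma0 N) →+ ZMod p) = 0 →
      ∀ gam : Gamma0 N, (gam : SL(2, ℤ)) ∈ Gamma M →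
        (v.1 : Additive (Gamma0 N) →+ ZMod p) (Additive.ofMul gam) = 0 ∧
        (v.2 : Additive (Gamma0 N) →+ ZMod p) (Additive.ofMul gam) = 0) := by
    intro v
    by_cases hv : res₁ N q (ZMod p) (v.1 : Additive (Gamma0 N) →+ ZMod p)
        + res₂ N q (ZMod p) (v.2 : Additive (Gamma0 N) →+ ZMod p) = 0
    · obtain ⟨M, hM, hvan⟩ := Ihara.ihara_vanish_of_csp hcsp hNq _ _ v.1.2 v.2.2 hv
      exact ⟨M, hM, fun _ => hvan⟩
    · exact ⟨1, Nat.one_pos, fun h => absurd h hv⟩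
  choose Mf hMpos hMf using hex
  refine ⟨∏ v : HP N p × HP N p, Mf v, Finset.prod_pos fun v _ => hMpos v, ?_⟩
  intro φ₁ h₁ φ₂ h₂ hker gam hgam
  have hdvd : Mf (⟨φ₁, h₁⟩, ⟨φ₂, h₂⟩) ∣ ∏ v : HP N p × HP N p, Mf v :=
    Finset.dvd_prod_of_mem _ (Finset.mem_univ _)
  exact hMf (⟨φ₁, h₁⟩, ⟨φ₂, h₂⟩) hker gam (Gamma_le_of_dvd' hdvd hgam)

variable {N q p}

/-- reduction mod `p` of a class. -/
private abbrev red (M : ℕ) (u : Additive (Gamma0 M) →+ ℤ) : Additive (Gamma0 M) →+ ZMod p :=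
  (Int.castAddHom (ZMod p)).comp u

omit [NeZero N] [Fact q.Prime] in
theorem red_smul_eq_zero (M : ℕ) (x : Additive (Gamma0 M) →+ ℤ) :
    (Int.castAddHom (ZMod p)).comp ((p : ℤ) • x) = 0 := by
  refine AddMonoidHom.ext fun g => ?_
  show (((p : ℤ) • x) g : ZMod p) = 0
  rw [AddMonoidHom.smul_apply, smul_eq_mul, Int.cast_mul]
  simp

/-- on `ker α` (mod `p`), `T_l = l + 1` for `l ≡ 1 mod M`. -/
theorem heckeHom_eq_of_iharaLevel {M : ℕ} (hM : IharaLevel N q p M)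
    (l : ℕ) [Fact l.Prime] (hlN : ¬ l ∣ N) (hl : l ≡ 1 [MOD M])
    (φ₁ : Additive (Gamma0 N) →+ ZMod p) (h₁ : φ₁ ∈ HP N p)
    (φ₂ : Additive (Gamma0 N) →+ ZMod p) (h₂ : φ₂ ∈ HP N p)
    (h : res₁ N q (ZMod p) φ₁ + res₂ N q (ZMod p) φ₂ = 0) :
    heckeHom N l hlN (ZMod p) φ₁ = ((l : ℤ) + 1) • φ₁ ∧
      heckeHom N l hlN (ZMod p) φ₂ = ((l : ℤ) + 1) • φ₂ := by
  have hv := hM φ₁ h₁ φ₂ h₂ h
  have e1 := Ihara.heckeHom_eq_smul_of_vanish N l hlN M hl φ₁ (fun gam hgam => (hv gam hgam).1)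
  have e2 := Ihara.heckeHom_eq_smul_of_vanish N l hlN M hl φ₂ (fun gam hgam => (hv gam hgam).2)
  have hc : ∀ φ : Additive (Gamma0 N) →+ ZMod p, (l + 1) • φ = ((l : ℤ) + 1) • φ := by
    intro φ
    have : ((l : ℤ) + 1) = ((l + 1 : ℕ) : ℤ) := by push_cast; rfl
    rw [this, natCast_zsmul]
  exact ⟨by rw [e1, hc], by rw [e2, hc]⟩

variable (N q p)

/-- Ihara level ⇒ Eisenstein (helper4's (I4)). -/
theorem iharaEis_of_iharaLevel {M : ℕ} (hM : IharaLevel N q p M) : IharaEis N q p M := by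
  intro φ₁ h₁ φ₂ h₂ h l _ hlN hl
  exact heckeHom_eq_of_iharaLevel hM l hlN hl φ₁ h₁ φ₂ h₂ h

/-- `hIhara` of `Final.chase`. -/
theorem ihara_int {M : ℕ} (hM : IharaEis N q p M)
    (l : ℕ) [Fact l.Prime] (hlN : ¬ l ∣ N) (hl : l ≡ 1 [MOD M])
    (u₁ : Additive (Gamma0 N) →+ ℤ) (hu₁ : u₁ ∈ HZ N)
    (u₂ : Additive (Gamma0 N) →+ ℤ) (hu₂ : u₂ ∈ HZ N)
    (x : Additive (Gamma0 (N * q)) →+ ℤ)
    (h : res₁ N q ℤ u₁ + res₂ N q ℤ u₂ = (p : ℤ) • x) :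
    ∃ w ∈ HZ N, heckeHom N l hlN ℤ u₁ - ((l : ℤ) + 1) • u₁ = (p : ℤ) • w := by
  have hb₁ : red (p := p) N u₁ ∈ HP N p := comp_mem_homPE (Gamma0 N) _ hu₁
  have hb₂ : red (p := p) N u₂ ∈ HP N p := comp_mem_homPE (Gamma0 N) _ hu₂
  have hα : res₁ N q (ZMod p) (red (p := p) N u₁) + res₂ N q (ZMod p) (red (p := p) N u₂) = 0 := by
    rw [Degeneracy.res₁_comp, Degeneracy.res₂_comp, ← AddMonoidHom.comp_add, h]
    exact red_smul_eq_zero (N * q) x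
  have hT := (hM _ hb₁ _ hb₂ hα l hlN hl).1
  have hmem : heckeHom N l hlN ℤ u₁ - ((l : ℤ) + 1) • u₁ ∈ HZ N :=
    Submodule.sub_mem _ (heckeHom_mem_homPE N l hlN hu₁) (Submodule.smul_mem _ _ hu₁)
  refine exists_eq_smul_of_cast_comp_eq_zero (Gamma0 N) p _ hmem ?_
  rw [AddMonoidHom.comp_sub, ← heckeHom_comp, hT]
  refine sub_eq_zero.mpr ?_
  refine AddMonoidHom.ext fun g => ?_
  show ((l : ℤ) + 1) • ((u₁ g : ℤ) : ZMod p) = ((((l : ℤ) + 1) • u₁) g : ℤ)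
  rw [AddMonoidHom.smul_apply, smul_eq_mul, Int.cast_mul, zsmul_eq_mul]

/-- `hDual` of `Final.chase`. -/
theorem dual_int (hqN : ¬ q ∣ N) (hPD : PD.PDHyp N q p) {M : ℕ} (hM : IharaEis N q p M)
    (l : ℕ) [Fact l.Prime] (hlN : ¬ l ∣ N) (hl : l ≡ 1 [MOD M]) (hPDl : PD.PDHyp N l p)
    (u₁ : Additive (Gamma0 N) →+ ℤ) (hu₁ : u₁ ∈ HZ N)
    (u₂ : Additive (Gamma0 N) →+ ℤ) (hu₂ : u₂ ∈ HZ N) :
    ∃ x ∈ HZ (N * q), ∃ w₁ ∈ HZ N, ∃ w₂ ∈ HZ N,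
      heckeHom N l hlN ℤ u₁ - ((l : ℤ) + 1) • u₁ = cor₁ N q ℤ x + (p : ℤ) • w₁ ∧
      heckeHom N l hlN ℤ u₂ - ((l : ℤ) + 1) • u₂ = cor₂ N q ℤ x + (p : ℤ) • w₂ := by
  have hb₁ : red (p := p) N u₁ ∈ HP N p := comp_mem_homPE (Gamma0 N) _ hu₁
  have hb₂ : red (p := p) N u₂ ∈ HP N p := comp_mem_homPE (Gamma0 N) _ hu₂
  obtain ⟨ψ, hψ, hψ1, hψ2⟩ := PD.exists_cor_eq_sub_smul N q p hPD l hPDl
    (fun ψ hψ => Degeneracy.cor₁_mem_homPE N q (ZMod p) (ZMod p) hψ)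
    (fun ψ hψ => Degeneracy.cor₂_mem_homPE N q (ZMod p) (ZMod p) hψ)
    (heckeHom N l hlN (ZMod p))
    (fun φ _ => (Degeneracy.cor₁_res₂ N l hlN (ZMod p) φ).symm)
    (fun φ _ => (Degeneracy.cor₂_res₁ N l hlN (ZMod p) φ).symm)
    (fun φ hφ => heckeHom_mem_homPE N l hlN hφ)
    ((l : ℤ) + 1)
    (fun φ₁ h₁ φ₂ h₂ h => hM φ₁ h₁ φ₂ h₂ h l hlN hl)
    (red (p := p) N u₁) (red (p := p) N u₂) hb₁ hb₂
  haveI : NeZero (N * q) := ⟨Nat.mul_ne_zero (NeZero.ne N) (NeZero.ne q)⟩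
  obtain ⟨x, hx, hxψ⟩ := exists_lift_zmod (N * q) p ψ hψ
  have hcast : ∀ (u : Additive (Gamma0 N) →+ ℤ),
      (Int.castAddHom (ZMod p)).comp (((l : ℤ) + 1) • u)
        = ((l : ℤ) + 1) • (Int.castAddHom (ZMod p)).comp u := by
    intro u
    refine AddMonoidHom.ext fun g => ?_
    show ((((l : ℤ) + 1) • u) g : ZMod p) = ((l : ℤ) + 1) • ((u g : ℤ) : ZMod p)
    rw [AddMonoidHom.smul_apply, smul_eq_mul, Int.cast_mul, zsmul_eq_mul]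
  have hx1 : cor₁ N q ℤ x ∈ HZ N := Degeneracy.cor₁_mem_homPE N q ℤ ℤ hx
  have hx2 : cor₂ N q ℤ x ∈ HZ N := Degeneracy.cor₂_mem_homPE N q ℤ ℤ hx
  have hm1 : heckeHom N l hlN ℤ u₁ - ((l : ℤ) + 1) • u₁ - cor₁ N q ℤ x ∈ HZ N :=
    Submodule.sub_mem _ (Submodule.sub_mem _ (heckeHom_mem_homPE N l hlN hu₁)
      (Submodule.smul_mem _ _ hu₁)) hx1
  have hm2 : heckeHom N l hlN ℤ u₂ - ((l : ℤ) + 1) • u₂ - cor₂ N q ℤ x ∈ HZ N :=
    Submodule.sub_mem _ (Submodule.sub_mem _ (heckeHom_mem_homPE N l hlN hu₂)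
      (Submodule.smul_mem _ _ hu₂)) hx2
  obtain ⟨w₁, hw₁, e₁⟩ := exists_eq_smul_of_cast_comp_eq_zero (Gamma0 N) p _ hm1 (by
    rw [AddMonoidHom.comp_sub, AddMonoidHom.comp_sub, ← heckeHom_comp, hcast,
      ← Degeneracy.cor₁_comp, hxψ, hψ1]
    exact sub_self _)
  obtain ⟨w₂, hw₂, e₂⟩ := exists_eq_smul_of_cast_comp_eq_zero (Gamma0 N) p _ hm2 (by
    rw [AddMonoidHom.comp_sub, AddMonoidHom.comp_sub, ← heckeHom_comp, hcast,
      ← Degeneracy.cor₂_comp, hxψ, hψ2]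
    exact sub_self _)
  refine ⟨x, hx, w₁, hw₁, w₂, hw₂, ?_, ?_⟩
  · rw [← e₁]; abel
  · rw [← e₂]; abel

end ModP

end Fermat.Agent.S41.Assembly
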