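import Mathlib
import Fermat.Agent.S41.Assembly.Defs
import Fermat.Agent.S41.Final.Lattice
import Fermat.Agent.S41.Final.HeckeComm
import Fermat.Agent.S41.Final.ReductionC
import Fermat.Agent.Gateway.EigenChar
import Fermat.Agent.Gateway.Hecke.CohPE

/-!
# P-S41 (B7), Step A: an integral eigenclass modulo `p` attached to the eigenform `f`

The class `periodHomPair N (f, f) ∈ H(N; ℂ)` is a simultaneous eigenvector of the Hecke operators
`T_l` (`l ∤ N`) with eigenvalues `a_l(f)`.  The reduction lemma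
`Final.exists_mod_p_eigenvector` applied to the lattice `H(N; ℤ) ⊂ H(N; ℂ)` produces an integral
class `v ∉ p H(N; ℤ)` with `T_l v ≡ a_l v mod p` for every prime `l` at which `a_l(f)` is
congruent to the integer `a_l` modulo `𝔪`.
-/

set_option autoImplicit false
set_option linter.style.haveILetI false

namespace Fermat.Agent.S41.Assembly

open CongruenceSubgroup ModularCurve ModularCurve.Period
open Fermat.Agent.Gateway.A2 Fermat.Agent.Gateway.HeckeCoh Fermat.Agent.Gateway.HeckeCohPeriod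
open Fermat.Agent.S41 Fermat.Agent.S41.Final
open scoped MatrixGroups

section

variable (N : ℕ) [NeZero N]

/-- `H(N; ℂ)` as a type. -/
private abbrev VC : Type := ↥(homPE ℂ (Gamma0 N) ℂ)

/-- the inclusion `H(N; ℤ) → H(N; ℂ)`. -/
noncomputable def castHZ : HZ N →ₗ[ℤ] ↥(homPE ℂ (Gamma0 N) ℂ) where
  toFun φ := ⟨(Int.castAddHom ℂ).comp φ.1, comp_mem_homPE (Gamma0 N) (Int.castAddHom ℂ) φ.2⟩
  map_add' φ ψ := by
    apply Subtype.ext
    refine AddMonoidHom.ext fun x => ?_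
    simp
  map_smul' c φ := by
    apply Subtype.ext
    refine AddMonoidHom.ext fun x => ?_
    simp

theorem castHZ_coe (φ : HZ N) :
    ((castHZ N φ : ↥(homPE ℂ (Gamma0 N) ℂ)) : Additive (Gamma0 N) →+ ℂ)
      = (Int.castAddHom ℂ).comp φ.1 := rfl

theorem castHZ_injective : Function.Injective (castHZ N) := by
  intro φ ψ h
  apply Subtype.ext
  apply cast_comp_injective (Gamma0 N)
  exact congrArg Subtype.val h

/-- the lattice `H(N; ℤ)` inside `H(N; ℂ)`. -/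
noncomputable def latHZ : Submodule ℤ ↥(homPE ℂ (Gamma0 N) ℂ) := LinearMap.range (castHZ N)

theorem latHZ_fg : (latHZ N).FG := by
  haveI : Module.Finite ℤ (HZ N) := finite_homPE_int N
  rw [latHZ, LinearMap.range_eq_map]
  exact Submodule.FG.map _ Module.Finite.fg_top

theorem span_latHZ : Submodule.span ℂ ((latHZ N : Submodule ℤ _) : Set ↥(homPE ℂ (Gamma0 N) ℂ)) = ⊤ := by
  have hinj : Function.Injective ((homPE ℂ (Gamma0 N) ℂ).subtype) := Subtype.val_injective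
  apply Submodule.map_injective_of_injective hinj
  rw [Submodule.map_span, Submodule.map_top, Submodule.range_subtype]
  refine Eq.trans ?_ (span_cast_homPE N)
  congr 1
  ext x
  constructor
  · rintro ⟨y, ⟨φ, rfl⟩, rfl⟩
    exact ⟨φ.1, φ.2, rfl⟩
  · rintro ⟨φ, hφ, rfl⟩
    exact ⟨castHZ N ⟨φ, hφ⟩, ⟨⟨φ, hφ⟩, rfl⟩, rfl⟩

theorem periodHomPair_mem_homPE (fg : CuspForm (Gamma0 N) 2 × CuspForm (Gamma0 N) 2) :
    periodHomPair N fg ∈ homPE ℂ (Gamma0 N) ℂ := by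
  rw [Fermat.Agent.Gateway.A2.Count.homPE_complex_eq, ← (Fermat.Agent.S21.result N).2]
  exact ⟨fg, rfl⟩

end

theorem exists_int_eigenclass (N : ℕ) [NeZero N] (p : ℕ) (hp : p.Prime)
    (f : CuspForm (Gamma0 N) 2) (hf : f.IsNormalizedEigenform)
    (𝔪 : Ideal (integralClosure ℤ ℂ)) (hmax : 𝔪.IsMaximal)
    (hpm : ((p : ℕ) : integralClosure ℤ ℂ) ∈ 𝔪)
    (P : ℕ → Prop) (a : ℕ → ℤ)
    (hcong : ∀ l : ℕ, l.Prime → ¬ l ∣ N → P l →
      ∃ c : integralClosure ℤ ℂ, (c : ℂ) = ModularFormClass.qCoeff f l ∧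
        c - (a l : integralClosure ℤ ℂ) ∈ 𝔪) :
    ∃ v ∈ HZ N, (¬ ∃ w ∈ HZ N, v = (p : ℤ) • w) ∧
      ∀ (l : ℕ) (hl : l.Prime) (hlN : ¬ l ∣ N), P l →
        ∃ w ∈ HZ N, (haveI := Fact.mk hl; heckeHom N l hlN ℤ v) - a l • v = (p : ℤ) • w := by
  classical
  -- index set and operators
  let ι := {l : ℕ // l.Prime ∧ ¬ l ∣ N ∧ P l}
  let T : ι → Module.End ℂ ↥(homPE ℂ (Gamma0 N) ℂ) := fun i =>
    haveI := Fact.mk i.2.1; heckeCohR N i.1 i.2.2.1 ℂ ℂ
  have hTcoe : ∀ (i : ι) (x : ↥(homPE ℂ (Gamma0 N) ℂ)),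
      ((T i x : ↥(homPE ℂ (Gamma0 N) ℂ)) : Additive (Gamma0 N) →+ ℂ)
        = (haveI := Fact.mk i.2.1; heckeHom N i.1 i.2.2.1 ℂ x.1) := fun _ _ => rfl
  have hcomm : ∀ i j, Commute (T i) (T j) := by
    intro i j
    haveI := Fact.mk i.2.1
    haveI := Fact.mk j.2.1
    show T i * T j = T j * T i
    refine LinearMap.ext fun x => ?_
    apply Subtype.ext
    show heckeHom N i.1 i.2.2.1 ℂ (heckeHom N j.1 j.2.2.1 ℂ x.1)
      = heckeHom N j.1 j.2.2.1 ℂ (heckeHom N i.1 i.2.2.1 ℂ x.1)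
    exact heckeHom_comm_of_mem_homPE N i.1 j.1 i.2.2.1 j.2.2.1 x.1 x.2
  -- `T i` on the lattice
  have hTcast : ∀ (i : ι) (φ : HZ N), T i (castHZ N φ)
      = castHZ N (haveI := Fact.mk i.2.1; heckeCoh N i.1 i.2.2.1 ℤ φ) := by
    intro i φ
    haveI := Fact.mk i.2.1
    apply Subtype.ext
    show heckeHom N i.1 i.2.2.1 ℂ ((Int.castAddHom ℂ).comp φ.1)
      = (Int.castAddHom ℂ).comp (heckeHom N i.1 i.2.2.1 ℤ φ.1)
    exact heckeHom_comp N i.1 i.2.2.1 (Int.castAddHom ℂ) φ.1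
  have hTL : ∀ i, ∀ x ∈ latHZ N, T i x ∈ latHZ N := by
    rintro i _ ⟨φ, rfl⟩
    rw [hTcast]
    exact ⟨_, rfl⟩
  -- the eigenvector
  let x0 : ↥(homPE ℂ (Gamma0 N) ℂ) := ⟨periodHomPair N (f, f), periodHomPair_mem_homPE N (f, f)⟩
  have hx0 : x0 ≠ 0 := by
    intro h
    have h1 : periodHomPair N (f, f) = 0 := congrArg Subtype.val h
    have h2 : (f, f) = (0 : CuspForm (Gamma0 N) 2 × CuspForm (Gamma0 N) 2) := by
      apply (Fermat.Agent.S21.result N).1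
      rw [h1, map_zero]
    exact hf.ne_zero (congrArg Prod.fst h2)
  let c : ι → ℂ := fun i => ModularFormClass.qCoeff f i.1
  have hx0c : ∀ i, T i x0 = c i • x0 := by
    intro i
    haveI := Fact.mk i.2.1
    apply Subtype.ext
    show heckeHom N i.1 i.2.2.1 ℂ (periodHomPair N (f, f)) = c i • periodHomPair N (f, f)
    rw [← periodHomPair_heckeTLin N i.1 i.2.2.1 i.2.1 f f,
      Fermat.Agent.Gateway.Assembly.EigenChar.heckeTLin_apply hf i.2.1 i.2.2.1]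
    have : ((ModularFormClass.qCoeff (⇑f) i.1 • f, ModularFormClass.qCoeff (⇑f) i.1 • f) :
        CuspForm (Gamma0 N) 2 × CuspForm (Gamma0 N) 2)
        = ModularFormClass.qCoeff (⇑f) i.1 • ((f, f) : CuspForm (Gamma0 N) 2 × CuspForm (Gamma0 N) 2) :=
      rfl
    rw [this, map_smul]
  -- the reduction lemma
  obtain ⟨x, hxL, hxp, hxT⟩ := exists_mod_p_eigenvector (latHZ N) (latHZ_fg N) (span_latHZ N) T hcomm
    hTL p hp x0 hx0 c hx0c 𝔪 hmax hpm (fun i => a i.1)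
    (fun i => by
      obtain ⟨c', hc', hcm⟩ := hcong i.1 i.2.1 i.2.2.1 i.2.2.2
      exact ⟨c', hc', hcm⟩)
  obtain ⟨v, rfl⟩ := hxL
  refine ⟨v.1, v.2, ?_, ?_⟩
  · rintro ⟨w, hw, hvw⟩
    apply hxp
    refine ⟨castHZ N ⟨w, hw⟩, ⟨_, rfl⟩, ?_⟩
    have : v = (p : ℤ) • (⟨w, hw⟩ : HZ N) := Subtype.ext hvw
    rw [this, map_smul]
  · intro l hl hlN hPl
    haveI := Fact.mk hl
    obtain ⟨y, ⟨w, rfl⟩, hy⟩ := hxT ⟨l, hl, hlN, hPl⟩
    refine ⟨w.1, w.2, ?_⟩
    have h1 : castHZ N (heckeCoh N l hlN ℤ v - a l • v) = castHZ N ((p : ℤ) • w) := by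
      rw [map_sub, map_smul, map_smul, ← hy]
      congr 1
      exact (hTcast ⟨l, hl, hlN, hPl⟩ v).symm
    have h2 := castHZ_injective N h1
    exact congrArg Subtype.val h2

end Fermat.Agent.S41.Assembly
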