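import Mathlib
import Fermat.Agent.S41.Defs
import Fermat.Agent.S41.Assembly.Defs
import Fermat.Agent.S41.Final.Lattice
import Fermat.Agent.S41.Final.DSLiftSpan
import Fermat.Agent.S41.Final.HeckeComm
import Fermat.Agent.S41.Degeneracy.HeckeCor
import Fermat.Agent.Gateway.Hecke.CohPE

/-!
# P-S41 (B7) Step C: Deligne–Serre lift on `ker β_ℤ`

`K := {x ∈ H(Nq; ℤ) | cor₁ x = 0 ∧ cor₂ x = 0}` is a Hecke-stable lattice; a class `y ∈ K`,
`y ∉ p H(Nq; ℤ)`, which is an eigenvector modulo `p K` for the `T_ℓ` with eigenvalues `a ℓ`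
lifts to a complex eigenvector in `ℂ ⊗ K ⊆ ker β_ℂ` with eigenvalues congruent to `a ℓ`.
-/

set_option autoImplicit false
set_option linter.style.haveILetI false

namespace Fermat.Agent.S41.Assembly

open CongruenceSubgroup
open Fermat.Agent.Gateway.A2 Fermat.Agent.Gateway.HeckeCoh
open Fermat.Agent.S41 Fermat.Agent.S41.Final
open P2MW.S_ModularForm_heckeT_slash_eq_self_of_mem_Gamma0.ModularForm.HeckeSlashInvariance
open scoped MatrixGroups

section StepC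

variable (N q p : ℕ) [NeZero N] [Fact q.Prime] [Fact p.Prime]

/-- `ℂ`-linearity of `cor₁` (via naturality in the coefficient group). -/
theorem cor₁_smul_complex (c : ℂ) (ψ : Additive (Gamma0 (N * q)) →+ ℂ) :
    cor₁ N q ℂ (c • ψ) = c • cor₁ N q ℂ ψ := by
  have h : ∀ (G : Type) [Group G] (χ : Additive G →+ ℂ),
      c • χ = (DistribSMul.toAddMonoidHom ℂ c).comp χ := fun G _ χ => rfl
  rw [h, h]
  exact Degeneracy.corAlong_comp (incl N q) (incl_injective N q) _ ψ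

/-- `ℂ`-linearity of `cor₂`. -/
theorem cor₂_smul_complex (c : ℂ) (ψ : Additive (Gamma0 (N * q)) →+ ℂ) :
    cor₂ N q ℂ (c • ψ) = c • cor₂ N q ℂ ψ := by
  have h : ∀ (G : Type) [Group G] (χ : Additive G →+ ℂ),
      c • χ = (DistribSMul.toAddMonoidHom ℂ c).comp χ := fun G _ χ => rfl
  rw [h, h]
  exact Degeneracy.corAlong_comp (degConj N q) (degConj_injective N q) _ ψ

/-- `cor₁` commutes with the change of coefficients `ℤ → ℂ`. -/
theorem cor₁_cast (k : Additive (Gamma0 (N * q)) →+ ℤ) :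
    cor₁ N q ℂ ((Int.castAddHom ℂ).comp k) = (Int.castAddHom ℂ).comp (cor₁ N q ℤ k) :=
  Degeneracy.corAlong_comp (incl N q) (incl_injective N q) _ k

/-- `cor₂` commutes with the change of coefficients `ℤ → ℂ`. -/
theorem cor₂_cast (k : Additive (Gamma0 (N * q)) →+ ℤ) :
    cor₂ N q ℂ ((Int.castAddHom ℂ).comp k) = (Int.castAddHom ℂ).comp (cor₂ N q ℤ k) :=
  Degeneracy.corAlong_comp (degConj N q) (degConj_injective N q) _ k

/-- The lattice `K = ker β_ℤ ∩ H(Nq; ℤ)`. -/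
noncomputable def kerBetaZ : Submodule ℤ (Additive (Gamma0 (N * q)) →+ ℤ) :=
  HZ (N * q) ⊓ (LinearMap.ker (cor₁ N q ℤ).toIntLinearMap ⊓
    LinearMap.ker (cor₂ N q ℤ).toIntLinearMap)

theorem mem_kerBetaZ (x : Additive (Gamma0 (N * q)) →+ ℤ) :
    x ∈ kerBetaZ N q ↔ x ∈ HZ (N * q) ∧ cor₁ N q ℤ x = 0 ∧ cor₂ N q ℤ x = 0 := by
  unfold kerBetaZ
  rw [Submodule.mem_inf, Submodule.mem_inf, LinearMap.mem_ker, LinearMap.mem_ker]
  rfl

theorem kerBetaZ_fg : (kerBetaZ N q).FG := by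
  have hfin : Module.Finite ℤ (HZ (N * q)) := finite_homPE_int (N * q)
  haveI : IsNoetherian ℤ (HZ (N * q)) := isNoetherian_of_isNoetherianRing_of_finite ℤ _
  have h1 : ((kerBetaZ N q).comap (HZ (N * q)).subtype).FG := IsNoetherian.noetherian _
  have h2 : kerBetaZ N q = ((kerBetaZ N q).comap (HZ (N * q)).subtype).map
      (HZ (N * q)).subtype := by
    rw [Submodule.map_comap_subtype]
    exact (inf_eq_right.mpr inf_le_left).symm
  rw [h2]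
  exact h1.map _

/-- Hecke operators away from `N q` preserve `K`. -/
theorem heckeHom_mem_kerBetaZ (hqN : ¬ q ∣ N) (l : ℕ) [Fact l.Prime] (hl' : ¬ l ∣ N * q)
    {x : Additive (Gamma0 (N * q)) →+ ℤ} (hx : x ∈ kerBetaZ N q) :
    heckeHom (N * q) l hl' ℤ x ∈ kerBetaZ N q := by
  rw [mem_kerBetaZ] at hx ⊢
  have hl : ¬ l ∣ N := fun h => hl' (Dvd.dvd.mul_right h q)
  refine ⟨heckeHom_mem_homPE (N * q) l hl' hx.1, ?_, ?_⟩
  · rw [← Degeneracy.heckeHom_cor₁ N q l hqN hl hl' ℤ x, hx.2.1, map_zero]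
  · rw [← Degeneracy.heckeHom_cor₂ N q l hqN hl hl' ℤ x, hx.2.2, map_zero]

theorem exists_complex_eigenclass (hqN : ¬ q ∣ N) {ι : Type*} (ℓ : ι → ℕ)
    (hℓ : ∀ i, (ℓ i).Prime)
    (hℓN : ∀ i, ¬ ℓ i ∣ N * q) (a : ι → ℤ)
    (y : Additive (Gamma0 (N * q)) →+ ℤ) (hy : y ∈ HZ (N * q))
    (hy1 : cor₁ N q ℤ y = 0) (hy2 : cor₂ N q ℤ y = 0)
    (hyp : ¬ ∃ x ∈ HZ (N * q), y = (p : ℤ) • x)
    (hyT : ∀ i, ∃ x ∈ HZ (N * q), cor₁ N q ℤ x = 0 ∧ cor₂ N q ℤ x = 0 ∧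
      (haveI := Fact.mk (hℓ i); heckeHom (N * q) (ℓ i) (hℓN i) ℤ y) - a i • y = (p : ℤ) • x) :
    ∃ (x : Additive (Gamma0 (N * q)) →+ ℂ) (𝔪' : Ideal (integralClosure ℤ ℂ))
      (c : ι → integralClosure ℤ ℂ),
      x ∈ homPE ℂ (Gamma0 (N * q)) ℂ ∧ x ≠ 0 ∧ cor₁ N q ℂ x = 0 ∧ cor₂ N q ℂ x = 0 ∧
      𝔪'.IsMaximal ∧ ((p : ℕ) : integralClosure ℤ ℂ) ∈ 𝔪' ∧
      ∀ i, (haveI := Fact.mk (hℓ i); heckeHom (N * q) (ℓ i) (hℓN i) ℂ x) = (c i : ℂ) • x ∧
        c i - (a i : integralClosure ℤ ℂ) ∈ 𝔪' := by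
  classical
  have hp : p.Prime := Fact.out
  -- the cast map
  let cast : (Additive (Gamma0 (N * q)) →+ ℤ) →+ (Additive (Gamma0 (N * q)) →+ ℂ) :=
    coeffMap (Int.castAddHom ℂ) (Gamma0 (N * q))
  have hcast : ∀ k, cast k = (Int.castAddHom ℂ).comp k := fun _ => rfl
  let L : Submodule ℤ (Additive (Gamma0 (N * q)) →+ ℂ) :=
    (kerBetaZ N q).map cast.toIntLinearMap
  have hLmem : ∀ x, x ∈ L ↔ ∃ k ∈ kerBetaZ N q, (Int.castAddHom ℂ).comp k = x := by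
    intro x
    exact Submodule.mem_map
  have hLfg : L.FG := (kerBetaZ_fg N q).map _
  have hLPE : ∀ x ∈ L, x ∈ homPE ℂ (Gamma0 (N * q)) ℂ := by
    intro x hx
    obtain ⟨k, hk, rfl⟩ := (hLmem x).mp hx
    exact comp_mem_homPE (Gamma0 (N * q)) (Int.castAddHom ℂ) ((mem_kerBetaZ N q k).mp hk).1
  -- the operators
  let T : ι → Module.End ℂ (Additive (Gamma0 (N * q)) →+ ℂ) := fun i =>
    haveI := Fact.mk (hℓ i)
    { toFun := fun x => heckeHom (N * q) (ℓ i) (hℓN i) ℂ x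
      map_add' := fun x x' => map_add _ x x'
      map_smul' := fun c x => heckeHom_smul (N * q) (ℓ i) (hℓN i) c x }
  have hTapp : ∀ i x, T i x = (haveI := Fact.mk (hℓ i); heckeHom (N * q) (ℓ i) (hℓN i) ℂ x) :=
    fun _ _ => rfl
  have hTcast : ∀ i k, T i ((Int.castAddHom ℂ).comp k) = (Int.castAddHom ℂ).comp
      (haveI := Fact.mk (hℓ i); heckeHom (N * q) (ℓ i) (hℓN i) ℤ k) := by
    intro i k
    haveI := Fact.mk (hℓ i)
    exact heckeHom_comp (N * q) (ℓ i) (hℓN i) (Int.castAddHom ℂ) k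
  have hcomm : ∀ i j, ∀ x ∈ L, T i (T j x) = T j (T i x) := by
    intro i j x hx
    haveI := Fact.mk (hℓ i)
    haveI := Fact.mk (hℓ j)
    exact heckeHom_comm_of_mem_homPE (N * q) (ℓ i) (ℓ j) (hℓN i) (hℓN j) x (hLPE x hx)
  have hTL : ∀ i, ∀ x ∈ L, T i x ∈ L := by
    intro i x hx
    obtain ⟨k, hk, rfl⟩ := (hLmem x).mp hx
    haveI := Fact.mk (hℓ i)
    rw [hTcast i k]
    exact (hLmem _).mpr ⟨_, heckeHom_mem_kerBetaZ N q hqN (ℓ i) (hℓN i) hk, rfl⟩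
  have hyK : y ∈ kerBetaZ N q := (mem_kerBetaZ N q y).mpr ⟨hy, hy1, hy2⟩
  have hgL : (Int.castAddHom ℂ).comp y ∈ L := (hLmem _).mpr ⟨y, hyK, rfl⟩
  have hg : ¬ ∃ h ∈ L, (Int.castAddHom ℂ).comp y = (p : ℤ) • h := by
    rintro ⟨h, hh, e⟩
    obtain ⟨k, hk, rfl⟩ := (hLmem h).mp hh
    apply hyp
    refine ⟨k, ((mem_kerBetaZ N q k).mp hk).1, ?_⟩
    apply cast_comp_injective (Gamma0 (N * q))
    show (Int.castAddHom ℂ).comp y = (Int.castAddHom ℂ).comp ((p : ℤ) • k)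
    rw [e]
    exact (map_zsmul cast (p : ℤ) k).symm
  have ha : ∀ i, ∃ h ∈ L, T i ((Int.castAddHom ℂ).comp y) - a i • (Int.castAddHom ℂ).comp y
      = (p : ℤ) • h := by
    intro i
    obtain ⟨x, hx, hx1, hx2, e⟩ := hyT i
    refine ⟨(Int.castAddHom ℂ).comp x, (hLmem _).mpr
      ⟨x, (mem_kerBetaZ N q x).mpr ⟨hx, hx1, hx2⟩, rfl⟩, ?_⟩
    rw [hTcast i y]
    have e' := congrArg cast e
    rw [map_sub, map_zsmul, map_zsmul] at e'
    exact e'
  obtain ⟨f, 𝔪, c, hfspan, hf0, h𝔪, hp𝔪, hc⟩ :=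
    exists_eigenvector_lift_in_span L hLfg T hcomm hTL p hp _ hgL hg a ha
  have hcor1 : ∀ f ∈ Submodule.span ℂ (L : Set (Additive (Gamma0 (N * q)) →+ ℂ)),
      cor₁ N q ℂ f = 0 := by
    intro f hf
    induction hf using Submodule.span_induction with
    | mem x hx =>
      obtain ⟨k, hk, rfl⟩ := (hLmem x).mp hx
      rw [cor₁_cast, ((mem_kerBetaZ N q k).mp hk).2.1, AddMonoidHom.comp_zero]
    | zero => exact map_zero _
    | add x x' _ _ hx hx' => rw [map_add, hx, hx', add_zero]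
    | smul c x _ hx => rw [cor₁_smul_complex, hx, smul_zero]
  have hcor2 : ∀ f ∈ Submodule.span ℂ (L : Set (Additive (Gamma0 (N * q)) →+ ℂ)),
      cor₂ N q ℂ f = 0 := by
    intro f hf
    induction hf using Submodule.span_induction with
    | mem x hx =>
      obtain ⟨k, hk, rfl⟩ := (hLmem x).mp hx
      rw [cor₂_cast, ((mem_kerBetaZ N q k).mp hk).2.2, AddMonoidHom.comp_zero]
    | zero => exact map_zero _
    | add x x' _ _ hx hx' => rw [map_add, hx, hx', add_zero]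
    | smul c x _ hx => rw [cor₂_smul_complex, hx, smul_zero]
  exact ⟨f, 𝔪, c, (Submodule.span_le.mpr fun x hx => hLPE x hx) hfspan, hf0, hcor1 f hfspan,
    hcor2 f hfspan, h𝔪, hp𝔪, fun i => ⟨(hc i).1, (hc i).2⟩⟩

end StepC

end Fermat.Agent.S41.Assembly
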