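import Mathlib
import Fermat.Statements.S41
import Fermat.Agent.S41.Assembly.Defs
import Fermat.Agent.S41.Assembly.StepA
import Fermat.Agent.S41.Assembly.ModP
import Fermat.Agent.S41.Assembly.StepC
import Fermat.Agent.S41.Final.Chase
import Fermat.Agent.S41.Final.Lattice
import Fermat.Agent.S41.Degeneracy.PE
import Fermat.Agent.S41.Degeneracy.CorRes
import Fermat.Agent.S41.Degeneracy.HeckeRes
import Fermat.Agent.S41.Degeneracy.HeckeCor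
import Fermat.Agent.S41.PD.Final
import Fermat.Agent.S41.NonEis.Main
import Fermat.Agent.S41.Forms.Key

/-!
# P-S41 (B7): the final assembly of Ribet's level raising theorem

* `alphaZ`, `betaZ`: the degeneracy maps on the integral lattices `H(·; ℤ)`;
* `exists_new_int_eigenclass`: `Final.chase` instantiated with the cohomology of `Γ₀(N)`,
  `Γ₀(N q)`;
* `level_raising`: the frozen statement S41, from Ihara's lemma in the form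
  `∃ M, IharaEis N q p M`.
-/

set_option autoImplicit false
set_option linter.style.haveILetI false

namespace Fermat.Agent.S41.Assembly

open CongruenceSubgroup
open Fermat.Agent.Gateway.A2 Fermat.Agent.Gateway.HeckeCoh
open Fermat.Agent.S41 Fermat.Agent.S41.Final Fermat.Agent.S41.Degeneracy
open P2MW.S_ModularForm_heckeT_slash_eq_self_of_mem_Gamma0.ModularForm.HeckeSlashInvariance
open WeierstrassCurve WeierstrassCurve.Affine WeierstrassCurve.Affine.Point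
open scoped MatrixGroups

section Chase

variable (N q p : ℕ) [NeZero N] [Fact q.Prime] [Fact p.Prime]

/-- `α` on the integral lattices. -/
noncomputable def alphaZ : HZ N × HZ N →+ HZ (N * q) where
  toFun u := ⟨res₁ N q ℤ u.1.1 + res₂ N q ℤ u.2.1,
    (HZ (N * q)).add_mem (res₁_mem_homPE N q ℤ ℤ u.1.2) (res₂_mem_homPE N q ℤ ℤ u.2.2)⟩
  map_zero' := by
    apply Subtype.ext
    simp
  map_add' u w := by
    apply Subtype.ext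
    simp only [Prod.fst_add, Prod.snd_add, Submodule.coe_add, map_add]
    abel

/-- `β` on the integral lattices. -/
noncomputable def betaZ : HZ (N * q) →+ HZ N × HZ N where
  toFun x := (⟨cor₁ N q ℤ x.1, cor₁_mem_homPE N q ℤ ℤ x.2⟩,
    ⟨cor₂ N q ℤ x.1, cor₂_mem_homPE N q ℤ ℤ x.2⟩)
  map_zero' := by
    apply Prod.ext <;> apply Subtype.ext <;> simp
  map_add' x y := by
    apply Prod.ext <;> apply Subtype.ext <;> simp

/-- the chase, instantiated: from an integral eigenclass mod `p` at level `N` to one at level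
`N q` in `ker β`. -/
theorem exists_new_int_eigenclass (hqN : ¬ q ∣ N)
    {ι : Type*} (ℓ : ι → ℕ) (hℓ : ∀ i, (ℓ i).Prime) (hℓN : ∀ i, ¬ ℓ i ∣ N * q) (a : ι → ℤ)
    (ε : ℤ) (hε : ε * ε = 1)
    (v : Additive (Gamma0 N) →+ ℤ) (hv : v ∈ HZ N) (hvp : ¬ ∃ w ∈ HZ N, v = (p : ℤ) • w)
    (hvT : ∀ i, ∃ w ∈ HZ N,
      (haveI := Fact.mk (hℓ i);
        heckeHom N (ℓ i) (fun h => hℓN i (Dvd.dvd.mul_right h q)) ℤ v) - a i • v = (p : ℤ) • w)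
    (hvq : ∃ w ∈ HZ N, heckeHom N q hqN ℤ v - (ε * ((q : ℤ) + 1)) • v = (p : ℤ) • w)
    (i₀ : ι) (he : ¬ (p : ℤ) ∣ a i₀ - ((ℓ i₀ : ℤ) + 1))
    (hIhara : ∀ u₁ ∈ HZ N, ∀ u₂ ∈ HZ N, ∀ x : Additive (Gamma0 (N * q)) →+ ℤ,
      res₁ N q ℤ u₁ + res₂ N q ℤ u₂ = (p : ℤ) • x →
      ∃ w ∈ HZ N, (haveI := Fact.mk (hℓ i₀);
        heckeHom N (ℓ i₀) (fun h => hℓN i₀ (Dvd.dvd.mul_right h q)) ℤ u₁)
          - ((ℓ i₀ : ℤ) + 1) • u₁ = (p : ℤ) • w)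
    (hDual : ∀ u₁ ∈ HZ N, ∀ u₂ ∈ HZ N, ∃ x ∈ HZ (N * q), ∃ w₁ ∈ HZ N, ∃ w₂ ∈ HZ N,
      (haveI := Fact.mk (hℓ i₀);
        heckeHom N (ℓ i₀) (fun h => hℓN i₀ (Dvd.dvd.mul_right h q)) ℤ u₁)
          - ((ℓ i₀ : ℤ) + 1) • u₁ = cor₁ N q ℤ x + (p : ℤ) • w₁ ∧
      (haveI := Fact.mk (hℓ i₀);
        heckeHom N (ℓ i₀) (fun h => hℓN i₀ (Dvd.dvd.mul_right h q)) ℤ u₂)
          - ((ℓ i₀ : ℤ) + 1) • u₂ = cor₂ N q ℤ x + (p : ℤ) • w₂) :
    ∃ y ∈ HZ (N * q), cor₁ N q ℤ y = 0 ∧ cor₂ N q ℤ y = 0 ∧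
      (¬ ∃ x ∈ HZ (N * q), y = (p : ℤ) • x) ∧
      ∀ i, ∃ x ∈ HZ (N * q), cor₁ N q ℤ x = 0 ∧ cor₂ N q ℤ x = 0 ∧
        (haveI := Fact.mk (hℓ i); heckeHom (N * q) (ℓ i) (hℓN i) ℤ y) - a i • y = (p : ℤ) • x := by
  classical
  have hp : p.Prime := Fact.out
  have hℓN' : ∀ i, ¬ ℓ i ∣ N := fun i h => hℓN i (Dvd.dvd.mul_right h q)
  -- the operators
  let TX : ι → HZ (N * q) →+ HZ (N * q) := fun i =>
    haveI := Fact.mk (hℓ i); (heckeCoh (N * q) (ℓ i) (hℓN i) ℤ).toAddMonoidHom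
  let TV : ι → HZ N →+ HZ N := fun i =>
    haveI := Fact.mk (hℓ i); (heckeCoh N (ℓ i) (hℓN' i) ℤ).toAddMonoidHom
  let Tq : HZ N →+ HZ N := (heckeCoh N q hqN ℤ).toAddMonoidHom
  have hTXc : ∀ i (x : HZ (N * q)), ((TX i x : HZ (N * q)) : Additive (Gamma0 (N * q)) →+ ℤ)
      = (haveI := Fact.mk (hℓ i); heckeHom (N * q) (ℓ i) (hℓN i) ℤ x.1) := fun _ _ => rfl
  have hTVc : ∀ i (x : HZ N), ((TV i x : HZ N) : Additive (Gamma0 N) →+ ℤ)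
      = (haveI := Fact.mk (hℓ i); heckeHom N (ℓ i) (hℓN' i) ℤ x.1) := fun _ _ => rfl
  have hTqc : ∀ (x : HZ N), ((Tq x : HZ N) : Additive (Gamma0 N) →+ ℤ)
      = heckeHom N q hqN ℤ x.1 := fun _ => rfl
  haveI : Module.Finite ℤ (HZ N) := finite_homPE_int N
  have key := chase (X := HZ (N * q)) (V := HZ N) TX TV Tq (alphaZ N q) (betaZ N q) p hp
    (by
      intro w hw
      apply Subtype.ext
      have h1 : (p : ℤ) • (w : Additive (Gamma0 N) →+ ℤ) = 0 := by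
        have := congrArg Subtype.val hw
        simpa using this
      exact eq_zero_of_smul_eq_zero (by exact_mod_cast hp.ne_zero) h1)
    ((q : ℤ) + 1) ε hε a
    (by
      intro i u
      haveI := Fact.mk (hℓ i)
      apply Subtype.ext
      show res₁ N q ℤ (heckeHom N (ℓ i) (hℓN' i) ℤ u.1.1)
          + res₂ N q ℤ (heckeHom N (ℓ i) (hℓN' i) ℤ u.2.1)
        = heckeHom (N * q) (ℓ i) (hℓN i) ℤ (res₁ N q ℤ u.1.1 + res₂ N q ℤ u.2.1)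
      rw [map_add, heckeHom_res₁ N q (ℓ i) (hℓN' i) (hℓN i), heckeHom_res₂ N q (ℓ i) (hℓN' i) (hℓN i)])
    (by
      intro i x
      haveI := Fact.mk (hℓ i)
      apply Prod.ext <;> apply Subtype.ext
      · show cor₁ N q ℤ (heckeHom (N * q) (ℓ i) (hℓN i) ℤ x.1)
          = heckeHom N (ℓ i) (hℓN' i) ℤ (cor₁ N q ℤ x.1)
        rw [heckeHom_cor₁ N q (ℓ i) hqN (hℓN' i) (hℓN i)]
      · show cor₂ N q ℤ (heckeHom (N * q) (ℓ i) (hℓN i) ℤ x.1)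
          = heckeHom N (ℓ i) (hℓN' i) ℤ (cor₂ N q ℤ x.1)
        rw [heckeHom_cor₂ N q (ℓ i) hqN (hℓN' i) (hℓN i)])
    (by
      intro u
      apply Prod.ext <;> apply Subtype.ext
      · show cor₁ N q ℤ (res₁ N q ℤ u.1.1 + res₂ N q ℤ u.2.1)
          = ((q : ℤ) + 1) • u.1.1 + heckeHom N q hqN ℤ u.2.1
        rw [map_add, cor₁_res₁ N q hqN, cor₁_res₂ N q hqN]
        congr 1
      · show cor₂ N q ℤ (res₁ N q ℤ u.1.1 + res₂ N q ℤ u.2.1)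
          = heckeHom N q hqN ℤ u.1.1 + ((q : ℤ) + 1) • u.2.1
        rw [map_add, cor₂_res₁ N q hqN, cor₂_res₂ N q hqN]
        congr 1)
    ⟨v, hv⟩
    (by
      rintro ⟨w, hw⟩
      exact hvp ⟨w.1, w.2, by simpa using congrArg Subtype.val hw⟩)
    (by
      intro i
      obtain ⟨w, hw, h⟩ := hvT i
      exact ⟨⟨w, hw⟩, Subtype.ext h⟩)
    (by
      obtain ⟨w, hw, h⟩ := hvq
      exact ⟨⟨w, hw⟩, Subtype.ext h⟩)
    i₀ ((ℓ i₀ : ℤ) + 1) he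
    (by
      rintro u ⟨x, hx⟩
      obtain ⟨w, hw, h⟩ := hIhara u.1.1 u.1.2 u.2.1 u.2.2 x.1
        (congrArg Subtype.val hx)
      exact ⟨⟨w, hw⟩, Subtype.ext h⟩)
    (by
      intro u
      obtain ⟨x, hx, w₁, hw₁, w₂, hw₂, h1, h2⟩ := hDual u.1.1 u.1.2 u.2.1 u.2.2
      refine ⟨⟨x, hx⟩, (⟨w₁, hw₁⟩, ⟨w₂, hw₂⟩), ?_⟩
      apply Prod.ext <;> apply Subtype.ext
      · exact h1
      · exact h2)
  obtain ⟨y, hβy, hyp, hyT⟩ := key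
  have hβ : ∀ x : HZ (N * q), betaZ N q x = 0 → cor₁ N q ℤ x.1 = 0 ∧ cor₂ N q ℤ x.1 = 0 := by
    intro x hx
    have h1 := congrArg (fun u : HZ N × HZ N => (u.1 : Additive (Gamma0 N) →+ ℤ)) hx
    have h2 := congrArg (fun u : HZ N × HZ N => (u.2 : Additive (Gamma0 N) →+ ℤ)) hx
    exact ⟨h1, h2⟩
  refine ⟨y.1, y.2, (hβ y hβy).1, (hβ y hβy).2, ?_, ?_⟩
  · rintro ⟨x, hx, h⟩
    exact hyp ⟨⟨x, hx⟩, Subtype.ext h⟩
  · intro i
    obtain ⟨x, hβx, h⟩ := hyT i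
    refine ⟨x.1, x.2, (hβ x hβx).1, (hβ x hβx).2, ?_⟩
    exact congrArg Subtype.val h

end Chase

/-- **Level raising**, modulo Ihara's lemma in the form `∃ M, IharaEis N q p M`. -/
theorem level_raising
    (N q p : ℕ) [NeZero N] [Fact q.Prime] [Fact p.Prime] (hp2 : p ≠ 2) (hqN : ¬ q ∣ N)
    (hIh : ∃ M : ℕ, 0 < M ∧ IharaEis N q p M)
    (E : WeierstrassCurve ℚ) [E.IsElliptic] {W : WeierstrassCurve ℤ} (hW : W.IsIntegralModelOf E)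
    (hirr : GaloisRepIsIrreducible (K := AlgebraicClosure ℚ) ℚ E p)
    (f : CuspForm (Gamma0 N) 2) (𝔪 : Ideal (integralClosure ℤ ℂ))
    (hf : f.IsNormalizedEigenform) (hmax : 𝔪.IsMaximal) (hpm : (p : integralClosure ℤ ℂ) ∈ 𝔪)
    (hcong : ∀ ℓ : ℕ, ℓ.Prime → W.IsGoodPrimeFor ℓ → ¬ ℓ ∣ N → ℓ ≠ p →
      ∃ a : integralClosure ℤ ℂ, (a : ℂ) = ModularFormClass.qCoeff f ℓ ∧
        a - ((W.apOfModel ℓ : ℤ) : integralClosure ℤ ℂ) ∈ 𝔪)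
    (hLR : ∃ a : integralClosure ℤ ℂ, (a : ℂ) = ModularFormClass.qCoeff f q ∧
      a ^ 2 - ((q : integralClosure ℤ ℂ) + 1) ^ 2 ∈ 𝔪) :
    ∃ (g : CuspForm (Gamma0 (N * q)) 2) (𝔪' : Ideal (integralClosure ℤ ℂ)),
      g.IsNormalizedEigenform ∧ 𝔪'.IsMaximal ∧ (p : integralClosure ℤ ℂ) ∈ 𝔪' ∧
      (∀ ℓ : ℕ, ℓ.Prime → W.IsGoodPrimeFor ℓ → ¬ ℓ ∣ N * q → ℓ ≠ p →
        ∃ a : integralClosure ℤ ℂ, (a : ℂ) = ModularFormClass.qCoeff g ℓ ∧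
          a - ((W.apOfModel ℓ : ℤ) : integralClosure ℤ ℂ) ∈ 𝔪') ∧
      g.IsNewAt q := by
  classical
  have hq : q.Prime := Fact.out
  have hp : p.Prime := Fact.out
  -- the sign `ε`
  obtain ⟨aq, haq, haq2⟩ := hLR
  have hprime : 𝔪.IsPrime := hmax.isPrime
  obtain ⟨ε, hε, hεm⟩ : ∃ ε : ℤ, ε * ε = 1 ∧
      aq - ((ε * ((q : ℤ) + 1) : ℤ) : integralClosure ℤ ℂ) ∈ 𝔪 := by
    have hfac : (aq - ((q : integralClosure ℤ ℂ) + 1)) * (aq + ((q : integralClosure ℤ ℂ) + 1))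
        ∈ 𝔪 := by
      have : (aq - ((q : integralClosure ℤ ℂ) + 1)) * (aq + ((q : integralClosure ℤ ℂ) + 1))
          = aq ^ 2 - ((q : integralClosure ℤ ℂ) + 1) ^ 2 := by ring
      rw [this]
      exact haq2
    rcases hprime.mem_or_mem hfac with h | h
    · refine ⟨1, by norm_num, ?_⟩
      have : ((1 * ((q : ℤ) + 1) : ℤ) : integralClosure ℤ ℂ) = (q : integralClosure ℤ ℂ) + 1 := by
        push_cast; ring
      rw [this]
      exact h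
    · refine ⟨-1, by norm_num, ?_⟩
      have : aq - (((-1) * ((q : ℤ) + 1) : ℤ) : integralClosure ℤ ℂ)
          = aq + ((q : integralClosure ℤ ℂ) + 1) := by
        push_cast; ring
      rw [this]
      exact h
  -- Step A
  let P : ℕ → Prop := fun l => l = q ∨ (W.IsGoodPrimeFor l ∧ l ≠ p)
  let aa : ℕ → ℤ := fun l => if l = q then ε * ((q : ℤ) + 1) else W.apOfModel l
  have hcongA : ∀ l : ℕ, l.Prime → ¬ l ∣ N → P l →
      ∃ c : integralClosure ℤ ℂ, (c : ℂ) = ModularFormClass.qCoeff f l ∧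
        c - (aa l : integralClosure ℤ ℂ) ∈ 𝔪 := by
    intro l hl hlN hP
    by_cases hlq : l = q
    · subst hlq
      refine ⟨aq, haq, ?_⟩
      have : aa l = ε * ((l : ℤ) + 1) := if_pos rfl
      rw [this]
      exact hεm
    · rcases hP with h | ⟨hg, hlp⟩
      · exact absurd h hlq
      · obtain ⟨c, hc, hcm⟩ := hcong l hl hg hlN hlp
        refine ⟨c, hc, ?_⟩
        have : aa l = W.apOfModel l := if_neg hlq
        rw [this]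
        exact hcm
  obtain ⟨v, hv, hvp, hvT⟩ := exists_int_eigenclass N p hp f hf 𝔪 hmax hpm P aa hcongA
  -- Ihara level and the auxiliary prime
  obtain ⟨M, hMpos, hM⟩ := hIh
  obtain ⟨l₀, hl₀, hl₀B, hl₀M, hl₀p, hl₀good, hl₀ne⟩ :=
    NonEis.exists_nonEisenstein_prime E hW hp hp2 hirr M hMpos (N * q).primeFactors
  have hNq0 : N * q ≠ 0 := Nat.mul_ne_zero (NeZero.ne N) hq.ne_zero
  have hl₀Nq : ¬ l₀ ∣ N * q := fun h =>
    hl₀B (Nat.mem_primeFactors.mpr ⟨hl₀, h, hNq0⟩)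
  -- the index set
  let ι := {l : ℕ // l.Prime ∧ ¬ l ∣ N * q ∧ W.IsGoodPrimeFor l ∧ l ≠ p}
  let ℓ : ι → ℕ := fun i => i.1
  have hℓ : ∀ i : ι, (ℓ i).Prime := fun i => i.2.1
  have hℓN : ∀ i : ι, ¬ ℓ i ∣ N * q := fun i => i.2.2.1
  let a : ι → ℤ := fun i => W.apOfModel i.1
  let i₀ : ι := ⟨l₀, hl₀, hl₀Nq, hl₀good, hl₀p⟩
  have hne : ∀ i : ι, ℓ i ≠ q := fun i h => hℓN i (h ▸ Dvd.intro_left N rfl)
  haveI : Fact l₀.Prime := ⟨hl₀⟩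
  have hl₀N : ¬ l₀ ∣ N := fun h => hl₀Nq (Dvd.dvd.mul_right h q)
  obtain ⟨y, hy, hy1, hy2, hyp, hyT⟩ := exists_new_int_eigenclass N q p hqN ℓ hℓ hℓN a ε hε
    v hv hvp
    (by
      intro i
      obtain ⟨w, hw, h⟩ := hvT (ℓ i) (hℓ i) (fun h => hℓN i (Dvd.dvd.mul_right h q))
        (Or.inr ⟨i.2.2.2.1, i.2.2.2.2⟩)
      refine ⟨w, hw, ?_⟩
      have : aa (ℓ i) = a i := if_neg (hne i)
      rw [← this]
      exact h)
    (by
      obtain ⟨w, hw, h⟩ := hvT q hq hqN (Or.inl rfl)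
      refine ⟨w, hw, ?_⟩
      have : aa q = ε * ((q : ℤ) + 1) := if_pos rfl
      rw [← this]
      exact h)
    i₀ hl₀ne
    (fun u₁ hu₁ u₂ hu₂ x hx => ihara_int N q p hM l₀ hl₀N hl₀M u₁ hu₁ u₂ hu₂ x hx)
    (fun u₁ hu₁ u₂ hu₂ => dual_int N q p hqN (PD.pdHyp_holds N q p) hM l₀ hl₀N hl₀M
      (PD.pdHyp_holds N l₀ p)
      u₁ hu₁ u₂ hu₂)
  -- Step C
  obtain ⟨x, 𝔪', c, hx, hx0, hx1, hx2, hmax', hpm', hxT⟩ :=
    exists_complex_eigenclass N q p hqN ℓ hℓ hℓN a y hy hy1 hy2 hyp hyT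
  -- Step D
  let Pg : ℕ → Prop := fun l => W.IsGoodPrimeFor l ∧ l ≠ p
  let cc : ℕ → ℂ := fun l =>
    if h : l.Prime ∧ ¬ l ∣ N * q ∧ W.IsGoodPrimeFor l ∧ l ≠ p then ((c ⟨l, h⟩ : integralClosure ℤ ℂ) : ℂ)
    else 0
  obtain ⟨g, hg, hgc, hgq⟩ := Forms.exists_eigenform_of_class N q hq hqN Pg cc x hx hx0 hx1 hx2
    (by
      intro l hl hlNq hPl
      have h : l.Prime ∧ ¬ l ∣ N * q ∧ W.IsGoodPrimeFor l ∧ l ≠ p := ⟨hl, hlNq, hPl.1, hPl.2⟩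
      have hcc : cc l = ((c ⟨l, h⟩ : integralClosure ℤ ℂ) : ℂ) := dif_pos h
      rw [hcc]
      exact (hxT ⟨l, h⟩).1)
  refine ⟨g, 𝔪', hg, hmax', hpm', ?_, hgq⟩
  intro l hl hgood hlNq hlp
  have h : l.Prime ∧ ¬ l ∣ N * q ∧ W.IsGoodPrimeFor l ∧ l ≠ p := ⟨hl, hlNq, hgood, hlp⟩
  refine ⟨c ⟨l, h⟩, ?_, (hxT ⟨l, h⟩).2⟩
  rw [hgc l hl hlNq ⟨hgood, hlp⟩]
  have hcc : cc l = ((c ⟨l, h⟩ : integralClosure ℤ ℂ) : ℂ) := dif_pos h
  exact hcc.symm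

end Fermat.Agent.S41.Assembly
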